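import Fermat.Agent.S21.E.Defs

/-!
# Project ES, part E, work package E-RH-RHO: the chart at `ρ`

`φ z = (z - ρ) / (z - ρ')`, `ψ w = (ρ - ρ' w) / (1 - w)` with `ρ' = conj ρ = -1 - ρ`,
and `(S * T) • ψ w = ψ (ρ' w)`.
-/

set_option autoImplicit false

open UpperHalfPlane hiding I
open Complex Filter Function Topology
open scoped Manifold MatrixGroups ModularForm Real

namespace Fermat.Agent.S21.E.RHRho

noncomputable section

/-- the elliptic element `S * T` of order `3` (in `PSL`) fixing `ρ` -/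
def sig : SL(2, ℤ) := ModularGroup.S * ModularGroup.T

lemma sig_pow_three : sig ^ 3 = -1 := by
  unfold sig
  decide

/-- the complex conjugate of `ρ` -/
def rhoc : ℂ := -1 - (rho : ℂ)

lemma rho_coe : (rho : ℂ) = -1 / 2 + (Real.sqrt 3 / 2) * Complex.I := rfl

lemma rho_re : (rho : ℂ).re = -1 / 2 := by
  rw [rho_coe]; simp

lemma rho_im : (rho : ℂ).im = Real.sqrt 3 / 2 := by
  rw [rho_coe]; simp

lemma rho_im_pos : 0 < (rho : ℂ).im := by
  rw [rho_im]; positivity

lemma rhoc_re : rhoc.re = -1 / 2 := by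
  unfold rhoc
  simp only [Complex.sub_re, Complex.neg_re, Complex.one_re, rho_re]
  norm_num

lemma rhoc_im : rhoc.im = -(Real.sqrt 3 / 2) := by
  unfold rhoc
  simp only [Complex.sub_im, Complex.neg_im, Complex.one_im, rho_im]
  norm_num

lemma rho_sq : (rho : ℂ) ^ 2 + rho + 1 = 0 := by
  apply Complex.ext
  · simp only [pow_two, Complex.add_re, Complex.mul_re, rho_re, rho_im, Complex.one_re,
      Complex.zero_re]
    have h3 : Real.sqrt 3 * Real.sqrt 3 = 3 := Real.mul_self_sqrt (by norm_num)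
    nlinarith [h3]
  · simp only [pow_two, Complex.add_im, Complex.mul_im, rho_re, rho_im, Complex.one_im,
      Complex.zero_im]
    ring

lemma rho_sub_rhoc_ne : (rho : ℂ) - rhoc ≠ 0 := by
  intro h
  have := congrArg Complex.im h
  simp only [Complex.sub_im, rho_im, rhoc_im, Complex.zero_im] at this
  have h3 : 0 < Real.sqrt 3 := by positivity
  linarith

lemma rhoc_pow_three : rhoc ^ 3 = 1 := by
  unfold rhoc
  linear_combination (-(rho : ℂ) - 2) * rho_sq

lemma rhoc_ne_one : rhoc ≠ 1 := by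
  intro h
  have := congrArg Complex.im h
  simp only [rhoc_im, Complex.one_im] at this
  have h3 : 0 < Real.sqrt 3 := by positivity
  linarith

lemma rhoc_sq_ne_one : rhoc ^ 2 ≠ 1 := by
  intro h
  have h1 : rhoc ^ 2 = (rho : ℂ) := by
    unfold rhoc
    linear_combination rho_sq
  rw [h1] at h
  have := congrArg Complex.im h
  simp only [rho_im, Complex.one_im] at this
  have h3 : 0 < Real.sqrt 3 := by positivity
  linarith

lemma rhoc_isPrimitiveRoot : IsPrimitiveRoot rhoc 3 := by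
  refine IsPrimitiveRoot.mk_of_lt rhoc (by norm_num) rhoc_pow_three ?_
  intro l hl0 hl3
  interval_cases l
  · simpa using rhoc_ne_one
  · exact rhoc_sq_ne_one

lemma norm_rhoc : ‖rhoc‖ = 1 := by
  have h := congrArg (fun z : ℂ => ‖z‖) rhoc_pow_three
  simp only [norm_pow, norm_one] at h
  exact (pow_eq_one_iff_of_nonneg (norm_nonneg _) (by norm_num)).mp h

/-- the inverse chart, as a complex number -/
def psiC (w : ℂ) : ℂ := ((rho : ℂ) - rhoc * w) / (1 - w)

/-- the inverse chart `ψ : ℂ → ℍ` (meaningful for `‖w‖ < 1`) -/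
def psi (w : ℂ) : ℍ := UpperHalfPlane.ofComplex (psiC w)

/-- the chart `φ : ℍ → ℂ` -/
def phi (z : ℍ) : ℂ := ((z : ℂ) - rho) / ((z : ℂ) - rhoc)

lemma one_sub_ne {w : ℂ} (hw : ‖w‖ < 1) : (1 : ℂ) - w ≠ 0 := by
  intro h
  have : w = 1 := by linear_combination -h
  rw [this] at hw
  simp at hw

lemma psiC_im {w : ℂ} (hw : ‖w‖ < 1) :
    (psiC w).im = (rho : ℂ).im * (1 - Complex.normSq w) / Complex.normSq (1 - w) := by
  unfold psiC
  rw [Complex.div_im]
  simp only [Complex.sub_re, Complex.sub_im, Complex.mul_re, Complex.mul_im, rhoc_re, rhoc_im,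
    rho_re, rho_im, Complex.one_re, Complex.one_im]
  have hD : Complex.normSq (1 - w) ≠ 0 := by
    rw [Ne, Complex.normSq_eq_zero]; exact one_sub_ne hw
  rw [Complex.normSq_apply w]
  field_simp
  ring

lemma psiC_im_pos {w : ℂ} (hw : ‖w‖ < 1) : 0 < (psiC w).im := by
  rw [psiC_im hw]
  have hD : 0 < Complex.normSq (1 - w) := Complex.normSq_pos.mpr (one_sub_ne hw)
  have hN : Complex.normSq w < 1 := by
    rw [Complex.normSq_eq_norm_sq]
    nlinarith [norm_nonneg w]
  have h1 : 0 < 1 - Complex.normSq w := by linarith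
  have := rho_im_pos
  positivity

lemma psi_coe {w : ℂ} (hw : ‖w‖ < 1) : ((psi w : ℍ) : ℂ) = psiC w := by
  unfold psi
  rw [UpperHalfPlane.ofComplex_apply_of_im_pos (psiC_im_pos hw)]

lemma sig_smul_coe (z : ℍ) : ((sig • z : ℍ) : ℂ) = -1 / ((z : ℂ) + 1) := by
  unfold sig
  rw [mul_smul, UpperHalfPlane.modular_S_smul, UpperHalfPlane.modular_T_smul]
  simp only [UpperHalfPlane.coe_vadd, Complex.ofReal_one]
  rw [← neg_inv, neg_div, one_div, add_comm]

lemma norm_rhoc_mul (w : ℂ) : ‖rhoc * w‖ = ‖w‖ := by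
  rw [norm_mul, norm_rhoc, one_mul]

lemma upper_add_one_ne (z : ℍ) : (z : ℂ) + 1 ≠ 0 := by
  intro h
  have := congrArg Complex.im h
  simp only [Complex.add_im, Complex.one_im, add_zero, Complex.zero_im] at this
  have h2 : 0 < (z : ℂ).im := z.coe_im_pos
  linarith

/-- equivariance of the inverse chart -/
lemma sig_smul_psi {w : ℂ} (hw : ‖w‖ < 1) : sig • psi w = psi (rhoc * w) := by
  have hw' : ‖rhoc * w‖ < 1 := by rw [norm_rhoc_mul]; exact hw
  apply UpperHalfPlane.ext
  rw [sig_smul_coe, psi_coe hw, psi_coe hw']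
  have h1 : (1 : ℂ) - w ≠ 0 := one_sub_ne hw
  have h2 : (1 : ℂ) - rhoc * w ≠ 0 := one_sub_ne hw'
  have h3 : psiC w + 1 ≠ 0 := by
    have := upper_add_one_ne (psi w)
    rwa [psi_coe hw] at this
  have h4 : ((rho : ℂ) - rhoc * w) + (1 - w) ≠ 0 := by
    intro h
    apply h3
    unfold psiC
    field_simp
    rw [mul_zero]
    exact h
  unfold psiC
  rw [div_add_one h1, div_div_eq_mul_div, div_eq_div_iff h4 h2]
  unfold rhoc
  linear_combination (-1 + ((rho : ℂ) + 1) * w + ((rho : ℂ) + 1) * w ^ 2) * rho_sq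

lemma upper_sub_rhoc_ne (z : ℍ) : (z : ℂ) - rhoc ≠ 0 := by
  intro h
  have := congrArg Complex.im h
  simp only [Complex.sub_im, rhoc_im, Complex.zero_im] at this
  have h2 : 0 < (z : ℂ).im := z.coe_im_pos
  have h3 : 0 < Real.sqrt 3 := by positivity
  linarith

lemma psiC_phi (z : ℍ) : psiC (phi z) = z := by
  unfold psiC phi
  have h1 := upper_sub_rhoc_ne z
  have h2 := rho_sub_rhoc_ne
  have h3 : (1 : ℂ) - ((z : ℂ) - rho) / ((z : ℂ) - rhoc) = ((rho : ℂ) - rhoc) / ((z : ℂ) - rhoc) := by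
    field_simp
    ring
  rw [h3]
  field_simp
  ring

lemma psi_phi (z : ℍ) : psi (phi z) = z := by
  unfold psi
  rw [psiC_phi, UpperHalfPlane.ofComplex_apply]

lemma phi_rho : phi rho = 0 := by
  unfold phi
  simp

lemma continuous_phi : Continuous phi := by
  unfold phi
  refine Continuous.div ?_ ?_ upper_sub_rhoc_ne
  · exact UpperHalfPlane.continuous_coe.sub continuous_const
  · exact UpperHalfPlane.continuous_coe.sub continuous_const

lemma tendsto_phi : Tendsto phi (𝓝 rho) (𝓝 0) := by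
  have := continuous_phi.tendsto rho
  rwa [phi_rho] at this

lemma norm_upper_sub_rhoc_ge (z : ℍ) : Real.sqrt 3 / 2 ≤ ‖(z : ℂ) - rhoc‖ := by
  have h1 : ((z : ℂ) - rhoc).im ≤ ‖(z : ℂ) - rhoc‖ := Complex.im_le_norm _
  have h2 : ((z : ℂ) - rhoc).im = (z : ℂ).im + Real.sqrt 3 / 2 := by
    simp only [Complex.sub_im, rhoc_im]; ring
  have h3 : 0 < (z : ℂ).im := z.coe_im_pos
  linarith

lemma norm_phi_le (z : ℍ) : ‖phi z‖ ≤ 2 * ‖(z : ℂ) - rho‖ := by
  unfold phi
  rw [norm_div]
  have h1 := norm_upper_sub_rhoc_ge z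
  have h3 : (1 : ℝ) ≤ Real.sqrt 3 := by
    rw [show (1 : ℝ) = Real.sqrt 1 by simp]
    exact Real.sqrt_le_sqrt (by norm_num)
  have h4 : (1 / 2 : ℝ) ≤ ‖(z : ℂ) - rhoc‖ := by linarith
  have h5 : 0 < ‖(z : ℂ) - rhoc‖ := by linarith
  rw [div_le_iff₀ h5]
  have h6 := norm_nonneg ((z : ℂ) - rho)
  nlinarith

/-- a holomorphic function on `ℍ` composed with the inverse chart is analytic at `0` -/
lemma analyticAt_comp_psi {f : ℍ → ℂ} (hf : MDiff f) : AnalyticAt ℂ (fun w => f (psi w)) 0 := by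
  have h1 : DifferentiableOn ℂ (f ∘ UpperHalfPlane.ofComplex) {z | 0 < z.im} :=
    UpperHalfPlane.mdifferentiable_iff.mp hf
  have h2 : DifferentiableOn ℂ psiC (Metric.ball (0 : ℂ) 1) := by
    intro w hw
    have hw' : ‖w‖ < 1 := by simpa using hw
    unfold psiC
    refine DifferentiableAt.differentiableWithinAt ?_
    refine DifferentiableAt.div ?_ ?_ (one_sub_ne hw')
    · fun_prop
    · fun_prop
  have h3 : DifferentiableOn ℂ (fun w => f (psi w)) (Metric.ball (0 : ℂ) 1) := by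
    have : (fun w => f (psi w)) = (f ∘ UpperHalfPlane.ofComplex) ∘ psiC := rfl
    rw [this]
    refine h1.comp h2 ?_
    intro w hw
    have hw' : ‖w‖ < 1 := by simpa using hw
    exact psiC_im_pos hw'
  exact h3.analyticAt (Metric.isOpen_ball.mem_nhds (by simp))

end

end Fermat.Agent.S21.E.RHRho
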